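import Fermat.Agent.Jac27.Interface

/-!
# The number of torsion classes from the three inputs
-/

set_option autoImplicit false

noncomputable section

namespace FLTAgent.Jac27

open AlgebraicCurve FLTAgent.Curves FLTAgent.Specialization

universe u v

/-- The count of the torsion classes of order dividing a prime power. -/
theorem card_torsion_of (hZ : TargetFiniteField.{u, max u v}) (hH : TargetLift.{u, max u v})
    (hS : TargetSpread.{u, v}) (hG : TargetGenus.{u, v}) (K : Type u) (F : Type v) [Field K] [Field F]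
    [Algebra K F] [IsAlgClosed K] [CharZero K] [IsCurveOver K F] [Algebra.EssFiniteType K F]
    (l : ℕ) (hl : l.Prime) (j : ℕ) :
    Nat.card (Pic0.torsion K F (l ^ j)) = l ^ (2 * genusFF K F * j) := by
  classical
  obtain ⟨hF, hg⟩ := hG K F
  haveI := hF
  set N : ℕ := l ^ (2 * genusFF K F * j)
  have hm : 0 < l ^ j := pow_pos hl.pos j
  have key : ∀ s : Finset (Pic0.torsion K F (l ^ j)),
      ∃ (T : Type (max u v)) (ι : T → Pic0.torsion K F (l ^ j)), Finite T ∧ Nat.card T = N ∧
        Function.Injective ι ∧ ∀ c ∈ s, c ∈ Set.range ι := by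
    intro s
    obtain ⟨p, hp, L, k, _, _, _, _, _, _, A, π, F₀, Fb, _, _, _, _, _, _, M, hB, hsm, hrk, hgL,
      hgk, ι, hι, hs⟩ := hS K F (l ^ j) hm s (l + l ^ j)
    haveI := hp
    have hpl : l ≠ p := by omega
    have hfac : ((l ^ j : ℕ) : k) ≠ 0 := by
      haveI : CharP k p := charP_of_injective_algebraMap (algebraMap (ZMod p) k).injective p
      rw [Ne, CharP.cast_eq_zero_iff k p]
      exact fun hd => hpl ((Nat.prime_dvd_prime_iff_eq hp.out hl).1 (hp.out.dvd_of_dvd_pow hd)).symm
    have hcard : Nat.card (Pic0.torsion L F₀ (l ^ j)) = N := by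
      rw [hH M hsm hrk _ hfac, hZ p k Fb l j hl hpl, hgk, ← hg, Int.toNat_natCast]
    exact ⟨_, ι, Nat.finite_of_card_ne_zero (by rw [hcard]; exact pow_ne_zero _ hl.ne_zero),
      hcard, hι, hs⟩
  have hbound : ∀ s : Finset (Pic0.torsion K F (l ^ j)), s.card ≤ N := by
    intro s
    obtain ⟨T, ι, hT, hcard, -, hs⟩ := key s
    haveI := Fintype.ofFinite T
    calc s.card ≤ (Finset.univ.image ι).card := Finset.card_le_card fun c hc => by
          obtain ⟨t, ht⟩ := hs c hc
          exact Finset.mem_image.2 ⟨t, Finset.mem_univ _, ht⟩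
      _ ≤ (Finset.univ : Finset T).card := Finset.card_image_le
      _ = N := by rw [Finset.card_univ, ← Nat.card_eq_fintype_card, hcard]
  haveI : Finite (Pic0.torsion K F (l ^ j)) := by
    refine not_infinite_iff_finite.1 fun h => ?_
    obtain ⟨s, -, hs⟩ :=
      (Set.infinite_univ (α := Pic0.torsion K F (l ^ j))).exists_subset_card_eq (N + 1)
    have := hbound s
    omega
  obtain ⟨T, ι, hT, hcard, hι, -⟩ := key ∅
  haveI := Fintype.ofFinite (Pic0.torsion K F (l ^ j))
  refine le_antisymm ?_ (hcard ▸ Nat.card_le_card_of_injective ι hι)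
  rw [Nat.card_eq_fintype_card, ← Finset.card_univ]
  exact hbound _

end FLTAgent.Jac27
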