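import Fermat.Agent.Specialization.Torsion
import Fermat.Prelude.Def_AlgebraicCurve_IsCurveOver

/-!
# Torsion of the classes of degree zero of a curve in characteristic zero: interface

The number of torsion classes is computed over an algebraic closure of a finite field and
transported by smooth models. `TargetFiniteField` is the count in positive characteristic,
`TargetLift` the bijectivity of specialisation on torsion of small order, and `TargetSpread` the
existence of models through which finitely many given classes descend.
-/

set_option autoImplicit false

noncomputable section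

namespace FLTAgent.Jac27

open AlgebraicCurve FLTAgent.Curves FLTAgent.Specialization

universe u v

/-- The count over an algebraic closure of a finite field, with the genus of Riemann's theorem. -/
def TargetFiniteField : Prop :=
  ∀ (p : ℕ) [Fact p.Prime] (k : Type u) [Field k] [IsAlgClosed k] [Algebra (ZMod p) k]
    [Algebra.IsAlgebraic (ZMod p) k] (F : Type v) [Field F] [Algebra k F] [IsFunctionField k F]
    (l j : ℕ), l.Prime → l ≠ p →
      Nat.card (Pic0.torsion k F (l ^ j)) = l ^ (2 * (rGenus k F).toNat * j)

/-- Specialisation is bijective on torsion of order prime to the residue characteristic. -/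
def TargetLift : Prop :=
  ∀ {L k : Type u} [Field L] [Field k] [IsAlgClosed L] [IsAlgClosed k] {A : ValuationSubring L}
    {π : A →+* k} {F Fb : Type v} [Field F] [Field Fb] [Algebra L F] [Algebra k Fb]
    [IsFunctionField L F] [IsFunctionField k Fb] (M : Model π F Fb) (_ : M.Smooth),
    RankOne π → ∀ (m : ℕ), (m : k) ≠ 0 →
      Nat.card (Pic0.torsion L F m) = Nat.card (Pic0.torsion k Fb m)

/-- Finitely many torsion classes descend to a curve with a smooth model over a place of
arbitrarily large residue characteristic with algebraic residue field. -/
def TargetSpread : Prop :=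
  ∀ (K : Type u) (F : Type v) [Field K] [Field F] [Algebra K F] [IsAlgClosed K] [CharZero K]
    [IsFunctionField K F] (m : ℕ) (_ : 0 < m) (s : Finset (Pic0.torsion K F m)) (B : ℕ),
    ∃ (p : ℕ) (_ : Fact p.Prime) (L k : Type u) (_ : Field L) (_ : Field k) (_ : IsAlgClosed L)
      (_ : IsAlgClosed k) (_ : Algebra (ZMod p) k) (_ : Algebra.IsAlgebraic (ZMod p) k)
      (A : ValuationSubring L) (π : A →+* k) (F₀ Fb : Type (max u v)) (_ : Field F₀)
      (_ : Field Fb) (_ : Algebra L F₀) (_ : Algebra k Fb) (_ : IsFunctionField L F₀)
      (_ : IsFunctionField k Fb) (M : Model π F₀ Fb),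
      B < p ∧ M.Smooth ∧ RankOne π ∧ rGenus L F₀ = rGenus K F ∧ rGenus k Fb = rGenus K F ∧
        ∃ ι : Pic0.torsion L F₀ m → Pic0.torsion K F m,
          Function.Injective ι ∧ ∀ c ∈ s, c ∈ Set.range ι

/-- The genus by repartitions is the genus of Riemann's theorem, and curves are function
fields. -/
def TargetGenus : Prop :=
  ∀ (K : Type u) (F : Type v) [Field K] [Field F] [Algebra K F] [IsAlgClosed K] [CharZero K]
    [IsCurveOver K F] [Algebra.EssFiniteType K F],
    IsFunctionField K F ∧
      ∀ [IsFunctionField K F], (genusFF K F : ℤ) = rGenus K F

end FLTAgent.Jac27
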