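import Fermat.Agent.Jac27.Interface
import Fermat.Agent.Jac27.Finite.Geom.Duality
import Mathlib.RingTheory.Unramified.Field

/-!
# Curves are function fields, and the two definitions of the genus agree

A function whose differential is nonzero spans the differentials, so the field is unramified,
hence finite, over the field it generates; the genus is the index of speciality of the zero
divisor.
-/

set_option autoImplicit false
set_option linter.style.haveILetI false

noncomputable section

namespace FLTAgent.Jac27

open AlgebraicCurve FLTAgent.Curves FLTAgent.Specialization KaehlerDifferential IntermediateField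

variable {K F : Type*} [Field K] [Field F] [Algebra K F] [IsAlgClosed K]

theorem isFunctionField_of_isCurveOver [IsCurveOver K F] [Algebra.EssFiniteType K F] :
    IsFunctionField K F := by
  obtain ⟨x, hx⟩ : ∃ x : F, D K F x ≠ 0 := by
    by_contra! h
    have htop := span_range_derivation K F
    rw [Submodule.span_eq_bot.2 (by rintro _ ⟨f, rfl⟩; exact h f)] at htop
    exact bot_ne_top htop
  have ht : Transcendental K x :=
    transcendental_of_ne_algebraMap fun c hc => hx (by rw [hc, Derivation.map_algebraMap])
  have hsub : Subsingleton Ω[F⁄K⟮x⟯] := by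
    refine subsingleton_of_forall_eq 0 fun ω => ?_
    obtain ⟨ω', rfl⟩ := KaehlerDifferential.map_surjective K K⟮x⟯ F ω
    obtain ⟨c, rfl⟩ :=
      exists_smul_eq_of_finrank_eq_one (IsCurveOver.finrank_kaehler (K := K) (F := F)) hx ω'
    rw [map_smul, KaehlerDifferential.map_D]
    have h0 : D K⟮x⟯ F x = 0 :=
      (D K⟮x⟯ F).map_algebraMap (⟨x, mem_adjoin_simple_self K x⟩ : K⟮x⟯)
    simp [h0]
  haveI : Algebra.FormallyUnramified K⟮x⟯ F := ⟨hsub⟩
  haveI : Algebra.EssFiniteType K⟮x⟯ F := Algebra.EssFiniteType.of_comp K K⟮x⟯ F
  exact IsFunctionField.mk_of x ht (Algebra.FormallyUnramified.finite_of_free K⟮x⟯ F)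

theorem genusFF_eq_rGenus [IsFunctionField K F] : (genusFF K F : ℤ) = rGenus K F := by
  have h := (Finite.Geom.index_formula (0 : Divisor K F)).2
  have h1 : ell (0 : Divisor K F) = 1 := by rw [ell, finrank_rrSpace_zero, Nat.cast_one]
  rw [h1, map_zero, sub_zero, sub_self, zero_add] at h
  exact h

universe u v

theorem targetGenus : TargetGenus.{u, v} :=
  fun _ _ _ _ _ _ _ _ _ => ⟨isFunctionField_of_isCurveOver, genusFF_eq_rGenus⟩

end FLTAgent.Jac27
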